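import Mathlib
import Fermat.Agent.LT.T3.Spec

/-!
# Row LT, tower T3, leaf T3.21 `HaarScaleC` (helper354)

OFF-MAIN.  The measure form of the product formula: multiplication by `α ∈ Kˣ` preserves every
Haar measure of `𝔸_K`.

Proof (Weil, *Basic Number Theory*, IV §4 Thm 5, in the form of Tate's thesis Thm 4.3.1... the
lattice argument): `x ↦ αx` is a topological automorphism of `𝔸_K`, hence maps the Haar measure
`ν` to `c · ν` (uniqueness of Haar measure).  It maps `K` onto `K`, hence the preimage of a
fundamental domain `D` of `K` is again a fundamental domain; all fundamental domains have the same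
measure, so `c · ν(D) = ν(D)` and `c = 1` because `0 < ν(D) < ∞`.

Inputs: `InLocCompC K` (only: `𝔸_K` locally compact and second countable) and `InFundDomC K`.
-/

set_option autoImplicit false
set_option linter.style.haveILetI false

open IsDedekindDomain NumberField MeasureTheory
open Fermat.Agent.LT.H556.A0
open Fermat.Agent.LT.T3

noncomputable section

namespace Fermat.Agent.LT.T3.H354

variable (K : Type) [Field K] [NumberField K]

/-- a number field is countable -/
theorem countable_numberField : Countable K := Finsupp.Countable.of_moduleFinite (R := ℚ) (M := K)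

/-- the principal adeles -/
abbrev princ354 : AddSubgroup (Adl K) := (algebraMap K (Adl K)).toAddMonoidHom.range

theorem countable_princ354 : Countable (princ354 K) := by
  haveI := countable_numberField K
  have h : (Set.range (algebraMap K (Adl K))).Countable := Set.countable_range _
  exact h.to_subtype

/-- multiplication by `α ∈ Kˣ` on the adeles, as an additive equivalence -/
def mulAdl (α : Kˣ) : Adl K ≃+ Adl K where
  toFun x := emb K (α : K) * x
  invFun x := emb K ((α⁻¹ : Kˣ) : K) * x
  left_inv x := by
    show emb K ((α⁻¹ : Kˣ) : K) * (emb K (α : K) * x) = x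
    rw [← mul_assoc, ← map_mul]
    simp
  right_inv x := by
    show emb K (α : K) * (emb K ((α⁻¹ : Kˣ) : K) * x) = x
    rw [← mul_assoc, ← map_mul]
    simp
  map_add' x y := mul_add _ _ _

@[simp] theorem mulAdl_apply (α : Kˣ) (x : Adl K) : mulAdl K α x = emb K (α : K) * x := rfl

theorem continuous_mulAdl (α : Kˣ) : Continuous (mulAdl K α) :=
  continuous_const.mul continuous_id

theorem continuous_mulAdl_symm (α : Kˣ) : Continuous (mulAdl K α).symm :=
  continuous_const.mul continuous_id

/-- multiplication by `α⁻¹` on the principal adeles -/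
def mulPrinc (α : Kˣ) : princ354 K → princ354 K := fun g =>
  ⟨emb K ((α⁻¹ : Kˣ) : K) * (g : Adl K), by
    obtain ⟨ξ, hξ⟩ := g.2
    refine ⟨((α⁻¹ : Kˣ) : K) * ξ, ?_⟩
    rw [← hξ]
    simp⟩

theorem mulPrinc_bijective (α : Kˣ) : Function.Bijective (mulPrinc K α) := by
  constructor
  · intro g h hgh
    have h1 : emb K ((α⁻¹ : Kˣ) : K) * (g : Adl K) = emb K ((α⁻¹ : Kˣ) : K) * (h : Adl K) :=
      congrArg Subtype.val hgh
    have h2 := congrArg (fun y => emb K (α : K) * y) h1
    simp only [← mul_assoc, ← map_mul] at h2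
    apply Subtype.ext
    simpa using h2
  · intro g
    obtain ⟨ξ, hξ⟩ := g.2
    refine ⟨⟨emb K ((α : K) * ξ), ⟨(α : K) * ξ, rfl⟩⟩, ?_⟩
    apply Subtype.ext
    show emb K ((α⁻¹ : Kˣ) : K) * emb K ((α : K) * ξ) = (g : Adl K)
    rw [← map_mul, ← mul_assoc, ← hξ]
    simp

/-- **T3.21.**  Multiplication by `α ∈ Kˣ` preserves every Haar measure of `𝔸_K`. -/
theorem haarScaleC_of (h1 : InLocCompC K) (h3 : InFundDomC K) : HaarScaleC K := by
  letI : MeasurableSpace (Adl K) := borel (Adl K)
  haveI : BorelSpace (Adl K) := ⟨rfl⟩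
  obtain ⟨⟨hlc, _, hsc⟩, -⟩ := h1
  haveI := hlc
  haveI := hsc
  haveI := countable_princ354 K
  intro ν hν α
  haveI := hν
  set e := mulAdl K α with he
  haveI hmap : (Measure.map e ν).IsAddHaarMeasure :=
    AddEquiv.isAddHaarMeasure_map ν e (continuous_mulAdl K α) (continuous_mulAdl_symm K α)
  have hmeas : Measurable e := (continuous_mulAdl K α).measurable
  -- uniqueness of Haar measure
  set c := (Measure.map e ν).addHaarScalarFactor ν with hc
  have hsmul : Measure.map e ν = c • ν := Measure.isAddLeftInvariant_eq_smul (Measure.map e ν) ν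
  -- the fundamental domain
  obtain ⟨D, hDm, hD, -, hpos, hfin⟩ := h3 ν hν
  have hqmp : Measure.QuasiMeasurePreserving e ν ν := by
    refine ⟨hmeas, ?_⟩
    rw [hsmul]
    exact Measure.smul_absolutelyContinuous
  have hD' : IsAddFundamentalDomain (princ354 K) (e ⁻¹' D) ν := by
    refine hD.preimage_of_equiv hqmp (mulPrinc_bijective K α) ?_
    intro g x
    show e (mulPrinc K α g +ᵥ x) = g +ᵥ e x
    show emb K (α : K) * (emb K ((α⁻¹ : Kˣ) : K) * (g : Adl K) + x) = (g : Adl K) + emb K (α : K) * x
    rw [mul_add, ← mul_assoc, ← map_mul]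
    simp
  have hmeq : ν (e ⁻¹' D) = ν D := hD'.measure_eq hD
  have h2 : (c : ENNReal) * ν D = ν D := by
    have := congrArg (fun m : Measure (Adl K) => m D) hsmul
    simp only [Measure.map_apply hmeas hDm, Measure.smul_apply] at this
    rw [hmeq] at this
    have h4 : c • ν D = (c : ENNReal) * ν D := rfl
    rw [← h4]
    exact this.symm
  have hc1 : (c : ENNReal) = 1 := by
    have h3 : (c : ENNReal) * ν D = 1 * ν D := by rw [h2, one_mul]
    exact (ENNReal.mul_left_inj hpos.ne' hfin.ne).mp h3
  have hc1' : c = 1 := by exact_mod_cast hc1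
  have : Measure.map e ν = ν := by rw [hsmul, hc1', one_smul]
  exact this

end Fermat.Agent.LT.T3.H354
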